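import Fermat.Agent.S52.H297.FrobFin
import Fermat.Agent.Lib.Frob.A2.H240.ShortNF

/-!
# Shared library `Frob`, small primes: the Hasse–Weil Frobenius relation over `𝔽_3` (helper545)

`Lib.Frob.FrobRelationFin` (piece A2) is stated and proved for primes `ℓ ≥ 5` only.  Here the same
statement for `ℓ = 3`:

* `frobRelationFin_three` : for every Weierstrass curve `E` over `ZMod 3` with `Δ ≠ 0`, every field
  `k` over `ZMod 3` and every `P : (E⁄k).Point`:  `Φ (Φ P) - a₃ • Φ P + 3 • P = 0`.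

Proof: complete the square (`2` is invertible in `𝔽_3`), then helper297's
`frobPsi_eq_zero_short` (Manin's exact-height argument over any finite field of odd
characteristic, curves `y² = x³ + a₂x² + a₄x + a₆`), transported by helper240's `frobRel_of_smul`.
-/

set_option autoImplicit false

open WeierstrassCurve WeierstrassCurve.Affine WeierstrassCurve.Affine.Point

namespace Fermat.Agent.Lib.Frob.Small

open Fermat.Agent.Lib.Frob Fermat.Agent.Lib.VC

/-- The Frobenius relation over a prime field of odd characteristic, for curves with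
`a₁ = a₃ = 0`. -/
theorem frobRel_of_a₁_a₃ (ℓ : ℕ) [Fact ℓ.Prime] (hℓ : ℓ ≠ 2) (E : WeierstrassCurve (ZMod ℓ))
    (h₁ : E.a₁ = 0) (h₃ : E.a₃ = 0) (hΔ : E.Δ ≠ 0)
    (k : Type) [Field k] [Algebra (ZMod ℓ) k] [DecidableEq k] (P : (E⁄k).Point) :
    frobPt ℓ E k (frobPt ℓ E k P) - E.traceOfFrobenius • frobPt ℓ E k P + (ℓ : ℤ) • P = 0 := by
  have hF : ringChar (ZMod ℓ) ≠ 2 := by
    rw [ZMod.ringChar_zmod_n]
    exact hℓ
  have key := Fermat.Agent.S52.H297.frobPsi_eq_zero_short hF E h₁ h₃ hΔ (L := k) P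
  rw [Fermat.Agent.Lib.FrobRel.H230.frobPsi_apply, ZMod.card] at key
  have ha : E.traceOfFrobenius = (ℓ : ℤ) + 1 - (Nat.card E.toAffine.Point : ℤ) := by
    unfold WeierstrassCurve.traceOfFrobenius WeierstrassCurve.card
    rw [Nat.card_eq_fintype_card, ZMod.card]
  rw [ha]
  exact key

/-- The Frobenius relation over a prime field of odd characteristic, any Weierstrass form. -/
theorem frobRel_of_odd (ℓ : ℕ) [Fact ℓ.Prime] (hℓ : ℓ ≠ 2) (E : WeierstrassCurve (ZMod ℓ))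
    (hΔ : E.Δ ≠ 0)
    (k : Type) [Field k] [Algebra (ZMod ℓ) k] [DecidableEq k] (P : (E⁄k).Point) :
    frobPt ℓ E k (frobPt ℓ E k P) - E.traceOfFrobenius • frobPt ℓ E k P + (ℓ : ℤ) • P = 0 := by
  have h2 : (2 : ZMod ℓ) ≠ 0 := by
    intro h
    have h2' : ((2 : ℕ) : ZMod ℓ) = 0 := by exact_mod_cast h
    rw [ZMod.natCast_eq_zero_iff] at h2'
    exact hℓ ((Nat.prime_dvd_prime_iff_eq (Fact.out : ℓ.Prime) Nat.prime_two).mp h2')
  set C : VariableChange (ZMod ℓ) := ⟨1, 0, -E.a₁ / 2, -E.a₃ / 2⟩ with hC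
  have h₁ : (C • E).a₁ = 0 := by
    rw [a₁_smul]
    simp only [hC, Units.val_one, inv_one, one_mul]
    field_simp
    ring
  have h₃ : (C • E).a₃ = 0 := by
    rw [a₃_smul]
    simp only [hC, Units.val_one, inv_one, one_pow, one_mul, zero_mul, add_zero]
    field_simp
    ring
  have hΔ' : (C • E).Δ ≠ 0 := by
    rw [variableChange_Δ]
    exact mul_ne_zero (pow_ne_zero _ (Units.ne_zero _)) hΔ
  exact Fermat.Agent.Lib.Frob.A2.H240.frobRel_of_smul ℓ E C k
    (frobRel_of_a₁_a₃ ℓ hℓ (C • E) h₁ h₃ hΔ' k) P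

/-- **Piece A2 at `ℓ = 3`.** -/
theorem frobRelationFin_three (E : WeierstrassCurve (ZMod 3)) (hΔ : E.Δ ≠ 0)
    (k : Type) [Field k] [Algebra (ZMod 3) k] [DecidableEq k] (P : (E⁄k).Point) :
    frobPt 3 E k (frobPt 3 E k P) - E.traceOfFrobenius • frobPt 3 E k P + ((3 : ℕ) : ℤ) • P = 0 :=
  frobRel_of_odd 3 (by norm_num) E hΔ k P

end Fermat.Agent.Lib.Frob.Small
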