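import Fermat.Agent.Lib.Frob.Small.Two
import Fermat.Agent.Lib.Frob.Small.Three
import Fermat.Agent.Lib.Frob.Glue
import Fermat.Agent.Lib.Frob.A1.Main

/-!
# Shared library `Frob`: the Frobenius relation at ALL good primes, including `ℓ = 2, 3` (helper545)

`Lib.Frob.FrobRelation` / `FrobRelationFin` are stated for primes `ℓ ≥ 5`.  Here the same
statements without the restriction `5 ≤ ℓ`:

* `frobRelationFinAll : FrobRelationFinAll` — over `𝔽_ℓ`, every prime `ℓ`, every Weierstrass curve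
  `E` with `Δ ≠ 0`, every field `k ⊇ 𝔽_ℓ`:  `Φ² − a_ℓ Φ + ℓ = 0` on `E(k)`.
* `frobRelationAll : FrobRelationAll` — for an integral model `W`, EVERY prime `ℓ ∤ Δ(W)`, every
  valuation subring `A` of `ℚ̄` above `ℓ`, every Frobenius element `σ` at `A` and every torsion
  point `P ∈ W(ℚ̄)` of order prime to `ℓ`:  `σ²P − a_ℓ(W)·σP + ℓ·P = 0`.

(`ℓ` odd: helper297's exact-height proof + completing the square; `ℓ = 2`: `Two.lean`;
reduction of torsion: landed piece A1, which has no restriction on `ℓ`.)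
-/

set_option autoImplicit false

open WeierstrassCurve WeierstrassCurve.Affine WeierstrassCurve.Affine.Point

namespace Fermat.Agent.Lib.Frob.Small

open Fermat.Agent.Lib.Frob

/-- Piece A2 without the restriction `5 ≤ ℓ`. -/
def FrobRelationFinAll : Prop :=
  ∀ (ℓ : ℕ) [Fact ℓ.Prime] (E : WeierstrassCurve (ZMod ℓ)), E.Δ ≠ 0 →
    ∀ (k : Type) [Field k] [Algebra (ZMod ℓ) k] [DecidableEq k] (P : (E⁄k).Point),
      frobPt ℓ E k (frobPt ℓ E k P) - E.traceOfFrobenius • frobPt ℓ E k P + (ℓ : ℤ) • P = 0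

/-- **The Hasse–Weil Frobenius relation over `𝔽_ℓ` for every prime `ℓ`.** -/
theorem frobRelationFinAll : FrobRelationFinAll := by
  intro ℓ _ E hΔ k _ _ _ P
  by_cases h2 : ℓ = 2
  · subst h2
    exact frobRelationFin_two E hΔ k P
  · exact frobRel_of_odd ℓ h2 E hΔ k P

/-- `Lib.Frob.FrobRelation` without the restriction `5 ≤ ℓ`. -/
def FrobRelationAll : Prop :=
  ∀ (W : WeierstrassCurve ℤ) (ℓ : ℕ), ℓ.Prime → W.IsGoodPrimeFor ℓ →
    ∀ (A : ValuationSubring Qb) (σ : Qb ≃ₐ[ℚ] Qb), A.LiesOverPrime ℓ → A.IsFrobeniusAt σ ℓ →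
      ∀ (n : ℕ), 0 < n → ¬ ℓ ∣ n → ∀ P : Pts W, n • P = 0 →
        σ • σ • P - W.apOfModel ℓ • σ • P + (ℓ : ℤ) • P = 0

/-- **The Frobenius relation `σ² − a_ℓ σ + ℓ = 0` on prime-to-`ℓ` torsion of `W(ℚ̄)`, for every
prime `ℓ` of good reduction (including `ℓ = 2, 3`).** -/
theorem frobRelationAll : FrobRelationAll := by
  intro W ℓ hℓ hgood A σ hA hσ n hn hℓn P hP
  have : Fact ℓ.Prime := ⟨hℓ⟩
  obtain ⟨k, hk1, hk2, hk3, red, hinj, hcomm⟩ := reductionData W ℓ hgood A σ hA hσ n hn hℓn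
  have hmem : P ∈ Submodule.torsionBy ℤ (Pts W) n := by
    rw [Submodule.mem_torsionBy_iff]
    rw [← hP]
    exact (natCast_zsmul P n)
  set P' : Submodule.torsionBy ℤ (Pts W) n := ⟨P, hmem⟩ with hP'
  have key : σ • σ • P' - W.apOfModel ℓ • σ • P' + (ℓ : ℤ) • P' = 0 := by
    apply hinj
    rw [_root_.map_zero, map_add, map_sub, map_zsmul, map_zsmul, hcomm, hcomm]
    exact frobRelationFinAll ℓ (W.reductionMod ℓ) (reductionMod_Δ_ne_zero W ℓ hgood) k (red P')
  have h2 := congrArg Subtype.val key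
  simp only [Submodule.coe_add, Submodule.coe_sub, Submodule.coe_smul_of_tower,
    coe_galois_smul_torsion, ZeroMemClass.coe_zero] at h2
  exact h2

/-- `frobRelationAll` restricted to `ℓ ≥ 5` is the frozen `FrobRelation`. -/
theorem frobRelation_of_all : FrobRelation :=
  fun W ℓ hℓ _ hgood A σ hA hσ n hn hℓn P hP =>
    frobRelationAll W ℓ hℓ hgood A σ hA hσ n hn hℓn P hP

end Fermat.Agent.Lib.Frob.Small
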