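import Mathlib
import Fermat.Agent.S52.H545.Frob

/-!
# Shared library `Frob`, small primes: Manin's rational function over `𝔽_2` (helper545)

For a Weierstrass curve `E` over `ZMod 2` and a point `P = (X, Y)` with `X² ≠ X` over the function
field, the `x`-coordinate of `Φ P - P` is the rational function `manU2 E / manV2` of `X`:
`maninPair_two : ManinPair E κ (manU2 E) manV2`.
-/

set_option autoImplicit false

namespace Fermat.Agent.Lib.Frob.Small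

open WeierstrassCurve WeierstrassCurve.Affine Polynomial
open Fermat.Agent.S52.H545

/-- Numerator of Manin's rational function `x(Φ P - P)` over `𝔽_2`. -/
noncomputable def manU2 (E : WeierstrassCurve (ZMod 2)) : (ZMod 2)[X] :=
  (C E.a₁ * X + C E.a₃ + 1) ^ 2 * (X ^ 3 + C E.a₂ * X ^ 2 + C E.a₄ * X + C E.a₆)
    + (X ^ 3 + C E.a₂ * X ^ 2 + C E.a₄ * X + C E.a₆ + C E.a₁ * X + C E.a₃) ^ 2
    + C E.a₁ * (X ^ 2 + X) *
        (X ^ 3 + C E.a₂ * X ^ 2 + C E.a₄ * X + C E.a₆ + C E.a₁ * X + C E.a₃)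
    + (C E.a₂ + X ^ 2 + X) * (X ^ 2 + X) ^ 2

/-- Denominator of Manin's rational function over `𝔽_2`. -/
noncomputable def manV2 : (ZMod 2)[X] := (X ^ 2 - X) ^ 2

lemma zmod_two_sq (a : ZMod 2) : a ^ 2 = a := by
  revert a; decide

variable (E : WeierstrassCurve (ZMod 2)) (κ : Type*) [Field κ] [Algebra (ZMod 2) κ]

lemma two_eq_zero_KK : (2 : KK E κ) = 0 := by
  have h : (2 : ZMod 2) = 0 := by decide
  have := congrArg (algebraMap (ZMod 2) (KK E κ)) h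
  rwa [map_ofNat, map_zero] at this

/-- Manin's pair over `𝔽_2`. -/
theorem maninPair_two : ManinPair E κ (manU2 E) manV2 where
  formula := by
    intro X Y h hX
    rw [ZMod.card] at hX
    obtain ⟨h1, e1⟩ := PhiP_some E κ h
    have hneg : (E⁄(KK E κ)).Nonsingular X ((E⁄(KK E κ)).negY X Y) :=
      (nonsingular_neg ..).mpr h
    have hX' : X ^ Fintype.card (ZMod 2) ≠ X := by rw [ZMod.card]; exact hX
    refine ⟨_, _, nonsingular_add h1 hneg fun hxy => hX' hxy.left, ?_, ?_⟩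
    · rw [e1, sub_eq_add_neg, Point.neg_some, Point.add_of_X_ne hX']
    · have hγ : X ^ 2 - X ≠ 0 := sub_ne_zero.mpr hX
      have h2 := two_eq_zero_KK E κ
      have hE := (equation_iff _ _).mp h.1
      have ha₁ : (algebraMap (ZMod 2) (KK E κ) E.a₁) ^ 2 = algebraMap (ZMod 2) (KK E κ) E.a₁ := by
        rw [← map_pow, zmod_two_sq]
      have ha₃ : (algebraMap (ZMod 2) (KK E κ) E.a₃) ^ 2 = algebraMap (ZMod 2) (KK E κ) E.a₃ := by
        rw [← map_pow, zmod_two_sq]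
      simp only [WeierstrassCurve.baseChange, WeierstrassCurve.map_a₁, WeierstrassCurve.map_a₂,
        WeierstrassCurve.map_a₃, WeierstrassCurve.map_a₄, WeierstrassCurve.map_a₆] at hE
      rw [slope_of_X_ne hX']
      simp only [ZMod.card, manU2, manV2, addX, negY, WeierstrassCurve.baseChange,
        WeierstrassCurve.map_a₁, WeierstrassCurve.map_a₂, WeierstrassCurve.map_a₃, eval₂_add,
        eval₂_sub, eval₂_mul, eval₂_pow, eval₂_X, eval₂_C, eval₂_one]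
      set a₁ := algebraMap (ZMod 2) (KK E κ) E.a₁
      set a₂ := algebraMap (ZMod 2) (KK E κ) E.a₂
      set a₃ := algebraMap (ZMod 2) (KK E κ) E.a₃
      set a₄ := algebraMap (ZMod 2) (KK E κ) E.a₄
      set a₆ := algebraMap (ZMod 2) (KK E κ) E.a₆
      have hlam : (Y ^ 2 - (-Y - a₁ * X - a₃)) / (X ^ 2 - X) * (X ^ 2 - X) =
          Y ^ 2 - (-Y - a₁ * X - a₃) := div_mul_cancel₀ _ hγ
      generalize (Y ^ 2 - (-Y - a₁ * X - a₃)) / (X ^ 2 - X) = lam at hlam ⊢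
      linear_combination
        (lam * (X ^ 2 - X) + (Y ^ 2 - (-Y - a₁ * X - a₃)) + a₁ * (X ^ 2 - X)) * hlam
        + (X ^ 3 + X ^ 2 * a₁ ^ 2 + X ^ 2 * a₁ + X ^ 2 * a₂ - X * Y * a₁ + 2 * X * a₁ * a₃ - X * a₁
          + X * a₄ + Y ^ 2 - Y * a₃ + 2 * Y + a₃ ^ 2 + a₆ + 1) * hE
        + (-X ^ 3 * Y * a₁ - 2 * X ^ 3 * Y - 3 * X ^ 2 * Y * a₃ + X ^ 2 * Y - 2 * X ^ 2) * ha₁
        + (-3 * X * Y * a₁ - Y * a₃ - Y) * ha₃
        + (-X ^ 6 - X ^ 5 - X ^ 4 * Y * a₁ - 3 * X ^ 4 * a₁ - X ^ 4 * a₂ - X ^ 4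
          - X ^ 3 * Y * a₁ * a₂ - X ^ 3 * Y * a₁ - X ^ 3 * Y * a₃ + X ^ 3 * Y - 3 * X ^ 3 * a₁ * a₂
          - 2 * X ^ 3 * a₃ - X ^ 3 - 2 * X ^ 2 * Y * a₁ * a₃ - X ^ 2 * Y * a₁ * a₄ + X ^ 2 * Y * a₁
          - X ^ 2 * Y * a₂ * a₃ + X ^ 2 * Y * a₂ - 3 * X ^ 2 * a₁ * a₄ - X ^ 2 * a₁
          - 2 * X ^ 2 * a₂ * a₃ - X ^ 2 * a₂ - X * Y * a₁ * a₃ - X * Y * a₁ * a₆ - X * Y * a₃ * a₄
          + X * Y * a₄ - X * a₁ * a₃ - 3 * X * a₁ * a₆ - 2 * X * a₃ * a₄ - Y * a₃ * a₆ + Y * a₆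
          - 2 * a₃ * a₆) * h2
  ne_zero := by
    intro X hX
    rw [ZMod.card] at hX
    simp only [manV2, eval₂_sub, eval₂_pow, eval₂_X]
    exact pow_ne_zero _ (sub_ne_zero.mpr hX)

end Fermat.Agent.Lib.Frob.Small
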