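import Mathlib
import Fermat.Prelude.Def_FLTPrelim_Modularity
import Fermat.Agent.S52.H621.ManinCard
import Fermat.Agent.Lib.Frob.Small.TwoFormula

/-!
# Shared library `Frob`, small primes: Manin's count over `𝔽_2` (helper545)

For each of the 16 Weierstrass equations over `ZMod 2` with `Δ ≠ 0`: the reduced form of Manin's
rational function `manU2 E / manV2` has degree `#E(𝔽_2)` (`RedData`), by explicit computation.
(Generated by a script; every proof is a polynomial identity checked by `linear_combination`.)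
-/

set_option autoImplicit false

namespace Fermat.Agent.Lib.Frob.Small

open WeierstrassCurve WeierstrassCurve.Affine Polynomial
open Fermat.Agent.S52.H545

lemma two_eq_zero_poly : (2 : (ZMod 2)[X]) = 0 := by
  have h : (2 : ZMod 2) = 0 := by decide
  have := congrArg (C : ZMod 2 → (ZMod 2)[X]) h
  rwa [map_ofNat, map_zero] at this

/-- Point count of a Weierstrass curve over `𝔽_2` from the count of affine solutions. -/
lemma card_eq_of_count (W : WeierstrassCurve (ZMod 2)) (hΔ : W.Δ ≠ 0) (n : ℕ)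
    (h : (Finset.univ.filter (fun q : ZMod 2 × ZMod 2 =>
      q.2 ^ 2 + W.a₁ * q.1 * q.2 + W.a₃ * q.2 = q.1 ^ 3 + W.a₂ * q.1 ^ 2 + W.a₄ * q.1 + W.a₆)).card
        = n) : W.card = n + 1 := by
  rw [WeierstrassCurve.card, Fermat.Agent.S52.H621.card_point_eq W.toAffine hΔ]
  congr 1
  rw [← h, ← Fintype.card_subtype, ← Nat.card_eq_fintype_card]
  apply Nat.card_congr
  exact Equiv.subtypeEquivRight fun q => equation_iff _ _

theorem card_00100 : (⟨0, 0, 1, 0, 0⟩ : WeierstrassCurve (ZMod 2)).card = 3 :=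
  card_eq_of_count _ (by decide) 2 (by decide)

theorem redData_00100 : Nonempty (RedData (manU2 (⟨0, 0, 1, 0, 0⟩ : WeierstrassCurve (ZMod 2))) manV2 3) := by
  refine ⟨⟨X ^ 2 + 1, X ^ 3 + X ^ 2 + 1, X ^ 2, ?_, ?_, ⟨1, X + 1, ?_⟩, ?_, ?_⟩⟩
  · simp only [manU2, map_one, map_zero]
    linear_combination (X ^ 6 + X ^ 5 + X ^ 4 + 3 * X ^ 3 - X ^ 2) * two_eq_zero_poly
  · simp only [manV2]
    linear_combination (-X ^ 3) * two_eq_zero_poly
  · linear_combination (X ^ 3 + X ^ 2) * two_eq_zero_poly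
  · compute_degree!
  · compute_degree
    all_goals norm_num

theorem card_00101 : (⟨0, 0, 1, 0, 1⟩ : WeierstrassCurve (ZMod 2)).card = 3 :=
  card_eq_of_count _ (by decide) 2 (by decide)

theorem redData_00101 : Nonempty (RedData (manU2 (⟨0, 0, 1, 0, 1⟩ : WeierstrassCurve (ZMod 2))) manV2 3) := by
  refine ⟨⟨X ^ 2, X ^ 3 + X ^ 2 + X, X ^ 2 + 1, ?_, ?_, ⟨1, X + 1, ?_⟩, ?_, ?_⟩⟩
  · simp only [manU2, map_one, map_zero]
    linear_combination (X ^ 6 + X ^ 5 + X ^ 4 + 4 * X ^ 3 + 4) * two_eq_zero_poly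
  · simp only [manV2]
    linear_combination (-X ^ 3) * two_eq_zero_poly
  · linear_combination (X ^ 3 + X ^ 2 + X) * two_eq_zero_poly
  · compute_degree!
  · compute_degree
    all_goals norm_num

theorem card_00110 : (⟨0, 0, 1, 1, 0⟩ : WeierstrassCurve (ZMod 2)).card = 5 :=
  card_eq_of_count _ (by decide) 4 (by decide)

theorem redData_00110 : Nonempty (RedData (manU2 (⟨0, 0, 1, 1, 0⟩ : WeierstrassCurve (ZMod 2))) manV2 5) := by
  refine ⟨⟨1, X ^ 5 + X ^ 4 + X ^ 3 + X ^ 2 + 1, X ^ 4 + X ^ 2, ?_, ?_, ⟨1, X + 1, ?_⟩, ?_, ?_⟩⟩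
  · simp only [manU2, map_one, map_zero]
    linear_combination (X ^ 6 + X ^ 5 + 2 * X ^ 4 + 3 * X ^ 3 + 3 * X) * two_eq_zero_poly
  · simp only [manV2]
    linear_combination (-X ^ 3) * two_eq_zero_poly
  · linear_combination (X ^ 5 + X ^ 4 + X ^ 3 + X ^ 2) * two_eq_zero_poly
  · compute_degree!
  · compute_degree
    all_goals norm_num

theorem card_00111 : (⟨0, 0, 1, 1, 1⟩ : WeierstrassCurve (ZMod 2)).card = 1 :=
  card_eq_of_count _ (by decide) 0 (by decide)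

theorem redData_00111 : Nonempty (RedData (manU2 (⟨0, 0, 1, 1, 1⟩ : WeierstrassCurve (ZMod 2))) manV2 1) := by
  refine ⟨⟨X ^ 4 + X ^ 2, X + 1, 1, ?_, ?_, ⟨0, 1, ?_⟩, ?_, ?_⟩⟩
  · simp only [manU2, map_one, map_zero]
    linear_combination (X ^ 6 + X ^ 5 + 2 * X ^ 4 + 4 * X ^ 3 + 4 * X + 4) * two_eq_zero_poly
  · simp only [manV2]
    linear_combination (-X ^ 3) * two_eq_zero_poly
  · linear_combination (0) * two_eq_zero_poly
  · compute_degree!
  · compute_degree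
    all_goals norm_num

theorem card_01100 : (⟨0, 1, 1, 0, 0⟩ : WeierstrassCurve (ZMod 2)).card = 5 :=
  card_eq_of_count _ (by decide) 4 (by decide)

theorem redData_01100 : Nonempty (RedData (manU2 (⟨0, 1, 1, 0, 0⟩ : WeierstrassCurve (ZMod 2))) manV2 5) := by
  refine ⟨⟨1, X ^ 5 + X ^ 4 + X ^ 3 + X ^ 2 + 1, X ^ 4 + X ^ 2, ?_, ?_, ⟨1, X + 1, ?_⟩, ?_, ?_⟩⟩
  · simp only [manU2, map_one, map_zero]
    linear_combination (X ^ 6 + 2 * X ^ 5 + 2 * X ^ 4 + 4 * X ^ 3 + 3 * X ^ 2) * two_eq_zero_poly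
  · simp only [manV2]
    linear_combination (-X ^ 3) * two_eq_zero_poly
  · linear_combination (X ^ 5 + X ^ 4 + X ^ 3 + X ^ 2) * two_eq_zero_poly
  · compute_degree!
  · compute_degree
    all_goals norm_num

theorem card_01101 : (⟨0, 1, 1, 0, 1⟩ : WeierstrassCurve (ZMod 2)).card = 1 :=
  card_eq_of_count _ (by decide) 0 (by decide)

theorem redData_01101 : Nonempty (RedData (manU2 (⟨0, 1, 1, 0, 1⟩ : WeierstrassCurve (ZMod 2))) manV2 1) := by
  refine ⟨⟨X ^ 4 + X ^ 2, X + 1, 1, ?_, ?_, ⟨0, 1, ?_⟩, ?_, ?_⟩⟩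
  · simp only [manU2, map_one, map_zero]
    linear_combination (X ^ 6 + 2 * X ^ 5 + 2 * X ^ 4 + 5 * X ^ 3 + 4 * X ^ 2 + 4) * two_eq_zero_poly
  · simp only [manV2]
    linear_combination (-X ^ 3) * two_eq_zero_poly
  · linear_combination (0) * two_eq_zero_poly
  · compute_degree!
  · compute_degree
    all_goals norm_num

theorem card_01110 : (⟨0, 1, 1, 1, 0⟩ : WeierstrassCurve (ZMod 2)).card = 3 :=
  card_eq_of_count _ (by decide) 2 (by decide)

theorem redData_01110 : Nonempty (RedData (manU2 (⟨0, 1, 1, 1, 0⟩ : WeierstrassCurve (ZMod 2))) manV2 3) := by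
  refine ⟨⟨X ^ 2 + 1, X ^ 3 + X ^ 2 + 1, X ^ 2, ?_, ?_, ⟨1, X + 1, ?_⟩, ?_, ?_⟩⟩
  · simp only [manU2, map_one, map_zero]
    linear_combination (X ^ 6 + 2 * X ^ 5 + 3 * X ^ 4 + 5 * X ^ 3 + 3 * X ^ 2 + 3 * X) * two_eq_zero_poly
  · simp only [manV2]
    linear_combination (-X ^ 3) * two_eq_zero_poly
  · linear_combination (X ^ 3 + X ^ 2) * two_eq_zero_poly
  · compute_degree!
  · compute_degree
    all_goals norm_num

theorem card_01111 : (⟨0, 1, 1, 1, 1⟩ : WeierstrassCurve (ZMod 2)).card = 3 :=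
  card_eq_of_count _ (by decide) 2 (by decide)

theorem redData_01111 : Nonempty (RedData (manU2 (⟨0, 1, 1, 1, 1⟩ : WeierstrassCurve (ZMod 2))) manV2 3) := by
  refine ⟨⟨X ^ 2, X ^ 3 + X ^ 2 + X, X ^ 2 + 1, ?_, ?_, ⟨1, X + 1, ?_⟩, ?_, ?_⟩⟩
  · simp only [manU2, map_one, map_zero]
    linear_combination (X ^ 6 + 2 * X ^ 5 + 3 * X ^ 4 + 6 * X ^ 3 + 5 * X ^ 2 + 4 * X + 4) * two_eq_zero_poly
  · simp only [manV2]
    linear_combination (-X ^ 3) * two_eq_zero_poly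
  · linear_combination (X ^ 3 + X ^ 2 + X) * two_eq_zero_poly
  · compute_degree!
  · compute_degree
    all_goals norm_num

theorem card_10001 : (⟨1, 0, 0, 0, 1⟩ : WeierstrassCurve (ZMod 2)).card = 4 :=
  card_eq_of_count _ (by decide) 3 (by decide)

theorem redData_10001 : Nonempty (RedData (manU2 (⟨1, 0, 0, 0, 1⟩ : WeierstrassCurve (ZMod 2))) manV2 4) := by
  refine ⟨⟨X, X ^ 4 + X ^ 2 + 1, X ^ 3 + X, ?_, ?_, ⟨1, X, ?_⟩, ?_, ?_⟩⟩
  · simp only [manU2, map_one, map_zero]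
    linear_combination (X ^ 6 + 2 * X ^ 5 + 4 * X ^ 4 + 2 * X ^ 3 + 2 * X ^ 2 + 2 * X + 1) * two_eq_zero_poly
  · simp only [manV2]
    linear_combination (-X ^ 3) * two_eq_zero_poly
  · linear_combination (X ^ 4 + X ^ 2) * two_eq_zero_poly
  · compute_degree!
  · compute_degree
    all_goals norm_num

theorem card_10010 : (⟨1, 0, 0, 1, 0⟩ : WeierstrassCurve (ZMod 2)).card = 4 :=
  card_eq_of_count _ (by decide) 3 (by decide)

theorem redData_10010 : Nonempty (RedData (manU2 (⟨1, 0, 0, 1, 0⟩ : WeierstrassCurve (ZMod 2))) manV2 4) := by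
  refine ⟨⟨X, X ^ 4 + X ^ 2 + 1, X ^ 3 + X, ?_, ?_, ⟨1, X, ?_⟩, ?_, ?_⟩⟩
  · simp only [manU2, map_one, map_zero]
    linear_combination (X ^ 6 + 2 * X ^ 5 + 5 * X ^ 4 + 2 * X ^ 3 + 4 * X ^ 2) * two_eq_zero_poly
  · simp only [manV2]
    linear_combination (-X ^ 3) * two_eq_zero_poly
  · linear_combination (X ^ 4 + X ^ 2) * two_eq_zero_poly
  · compute_degree!
  · compute_degree
    all_goals norm_num

theorem card_10101 : (⟨1, 0, 1, 0, 1⟩ : WeierstrassCurve (ZMod 2)).card = 2 :=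
  card_eq_of_count _ (by decide) 1 (by decide)

theorem redData_10101 : Nonempty (RedData (manU2 (⟨1, 0, 1, 0, 1⟩ : WeierstrassCurve (ZMod 2))) manV2 2) := by
  refine ⟨⟨X ^ 3 + X ^ 2, X ^ 2 + X + 1, X + 1, ?_, ?_, ⟨1, X, ?_⟩, ?_, ?_⟩⟩
  · simp only [manU2, map_one, map_zero]
    linear_combination (X ^ 6 + 2 * X ^ 5 + 4 * X ^ 4 + 4 * X ^ 3 + 2 * X ^ 2 + 5 * X + 4) * two_eq_zero_poly
  · simp only [manV2]
    linear_combination (-2 * X ^ 3) * two_eq_zero_poly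
  · linear_combination (X ^ 2 + X) * two_eq_zero_poly
  · compute_degree!
  · compute_degree
    all_goals norm_num

theorem card_10111 : (⟨1, 0, 1, 1, 1⟩ : WeierstrassCurve (ZMod 2)).card = 2 :=
  card_eq_of_count _ (by decide) 1 (by decide)

theorem redData_10111 : Nonempty (RedData (manU2 (⟨1, 0, 1, 1, 1⟩ : WeierstrassCurve (ZMod 2))) manV2 2) := by
  refine ⟨⟨X ^ 3 + X ^ 2, X ^ 2 + X + 1, X + 1, ?_, ?_, ⟨1, X, ?_⟩, ?_, ?_⟩⟩
  · simp only [manU2, map_one, map_zero]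
    linear_combination (X ^ 6 + 2 * X ^ 5 + 5 * X ^ 4 + 5 * X ^ 3 + 6 * X ^ 2 + 9 * X + 4) * two_eq_zero_poly
  · simp only [manV2]
    linear_combination (-2 * X ^ 3) * two_eq_zero_poly
  · linear_combination (X ^ 2 + X) * two_eq_zero_poly
  · compute_degree!
  · compute_degree
    all_goals norm_num

theorem card_11001 : (⟨1, 1, 0, 0, 1⟩ : WeierstrassCurve (ZMod 2)).card = 2 :=
  card_eq_of_count _ (by decide) 1 (by decide)

theorem redData_11001 : Nonempty (RedData (manU2 (⟨1, 1, 0, 0, 1⟩ : WeierstrassCurve (ZMod 2))) manV2 2) := by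
  refine ⟨⟨X ^ 3 + X, X ^ 2 + 1, X, ?_, ?_, ⟨1, X, ?_⟩, ?_, ?_⟩⟩
  · simp only [manU2, map_one, map_zero]
    linear_combination (X ^ 6 + 3 * X ^ 5 + 6 * X ^ 4 + 5 * X ^ 3 + 4 * X ^ 2 + 2 * X + 1) * two_eq_zero_poly
  · simp only [manV2]
    linear_combination (-X ^ 3) * two_eq_zero_poly
  · linear_combination (X ^ 2) * two_eq_zero_poly
  · compute_degree!
  · compute_degree
    all_goals norm_num

theorem card_11010 : (⟨1, 1, 0, 1, 0⟩ : WeierstrassCurve (ZMod 2)).card = 2 :=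
  card_eq_of_count _ (by decide) 1 (by decide)

theorem redData_11010 : Nonempty (RedData (manU2 (⟨1, 1, 0, 1, 0⟩ : WeierstrassCurve (ZMod 2))) manV2 2) := by
  refine ⟨⟨X ^ 3 + X, X ^ 2 + 1, X, ?_, ?_, ⟨1, X, ?_⟩, ?_, ?_⟩⟩
  · simp only [manU2, map_one, map_zero]
    linear_combination (X ^ 6 + 3 * X ^ 5 + 7 * X ^ 4 + 6 * X ^ 3 + 5 * X ^ 2) * two_eq_zero_poly
  · simp only [manV2]
    linear_combination (-X ^ 3) * two_eq_zero_poly
  · linear_combination (X ^ 2) * two_eq_zero_poly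
  · compute_degree!
  · compute_degree
    all_goals norm_num

theorem card_11100 : (⟨1, 1, 1, 0, 0⟩ : WeierstrassCurve (ZMod 2)).card = 4 :=
  card_eq_of_count _ (by decide) 3 (by decide)

theorem redData_11100 : Nonempty (RedData (manU2 (⟨1, 1, 1, 0, 0⟩ : WeierstrassCurve (ZMod 2))) manV2 4) := by
  refine ⟨⟨X + 1, X ^ 4 + X ^ 3 + 1, X ^ 3 + X ^ 2, ?_, ?_, ⟨1, X, ?_⟩, ?_, ?_⟩⟩
  · simp only [manU2, map_one, map_zero]
    linear_combination (X ^ 6 + 3 * X ^ 5 + 6 * X ^ 4 + 8 * X ^ 3 + 5 * X ^ 2 + X) * two_eq_zero_poly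
  · simp only [manV2]
    linear_combination (-2 * X ^ 3) * two_eq_zero_poly
  · linear_combination (X ^ 4 + X ^ 3) * two_eq_zero_poly
  · compute_degree!
  · compute_degree
    all_goals norm_num

theorem card_11110 : (⟨1, 1, 1, 1, 0⟩ : WeierstrassCurve (ZMod 2)).card = 4 :=
  card_eq_of_count _ (by decide) 3 (by decide)

theorem redData_11110 : Nonempty (RedData (manU2 (⟨1, 1, 1, 1, 0⟩ : WeierstrassCurve (ZMod 2))) manV2 4) := by
  refine ⟨⟨X + 1, X ^ 4 + X ^ 3 + 1, X ^ 3 + X ^ 2, ?_, ?_, ⟨1, X, ?_⟩, ?_, ?_⟩⟩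
  · simp only [manU2, map_one, map_zero]
    linear_combination (X ^ 6 + 3 * X ^ 5 + 7 * X ^ 4 + 10 * X ^ 3 + 9 * X ^ 2 + 4 * X) * two_eq_zero_poly
  · simp only [manV2]
    linear_combination (-2 * X ^ 3) * two_eq_zero_poly
  · linear_combination (X ^ 4 + X ^ 3) * two_eq_zero_poly
  · compute_degree!
  · compute_degree
    all_goals norm_num

end Fermat.Agent.Lib.Frob.Small
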