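import Mathlib
import Fermat.Agent.Lib.Frob.Small.TwoData
import Fermat.Agent.S52.H545.Final
import Fermat.Agent.Lib.Frob.Interfaces

/-!
# Shared library `Frob`, small primes: the Hasse–Weil Frobenius relation over `𝔽_2` (helper545)

`frobRelationFin_two` : for every Weierstrass curve `E` over `ZMod 2` with `Δ ≠ 0`, every field `k`
over `ZMod 2` and every `P : (E⁄k).Point`:  `Φ (Φ P) - a₂ • Φ P + 2 • P = 0`.

Proof: Manin's exact-height argument on the generic point (`S52/H545`, valid in characteristic
`2` because `a₁ x + a₃ ≠ 0`), with the explicit reduced forms of `x(Φ P - P)` of `TwoData.lean`,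
then helper230's `frobPsi_eq_zero` (generic point ⇒ all points).
-/

set_option autoImplicit false

namespace Fermat.Agent.Lib.Frob.Small

open WeierstrassCurve WeierstrassCurve.Affine Polynomial
open Fermat.Agent.S52.H545 Fermat.Agent.Lib.FrobRel

/-- Manin's count over `𝔽_2`, all nonsingular Weierstrass equations. -/
theorem exists_redData_two (E : WeierstrassCurve (ZMod 2)) (hΔ : E.Δ ≠ 0) :
    Nonempty (RedData (manU2 E) manV2 E.card) ∧ (E.a₁ ≠ 0 ∨ E.a₃ ≠ 0) := by
  obtain ⟨a₁, a₂, a₃, a₄, a₆⟩ := E
  have key : ∀ a : ZMod 2, a = 0 ∨ a = 1 := by decide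
  rcases key a₁ with rfl | rfl
  · rcases key a₂ with rfl | rfl
    · rcases key a₃ with rfl | rfl
      · rcases key a₄ with rfl | rfl
        · rcases key a₆ with rfl | rfl
          · exact absurd (by decide) hΔ
          · exact absurd (by decide) hΔ
        · rcases key a₆ with rfl | rfl
          · exact absurd (by decide) hΔ
          · exact absurd (by decide) hΔ
      · rcases key a₄ with rfl | rfl
        · rcases key a₆ with rfl | rfl
          · exact ⟨by rw [card_00100]; exact redData_00100, Or.inr (by decide)⟩
          · exact ⟨by rw [card_00101]; exact redData_00101, Or.inr (by decide)⟩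
        · rcases key a₆ with rfl | rfl
          · exact ⟨by rw [card_00110]; exact redData_00110, Or.inr (by decide)⟩
          · exact ⟨by rw [card_00111]; exact redData_00111, Or.inr (by decide)⟩
    · rcases key a₃ with rfl | rfl
      · rcases key a₄ with rfl | rfl
        · rcases key a₆ with rfl | rfl
          · exact absurd (by decide) hΔ
          · exact absurd (by decide) hΔ
        · rcases key a₆ with rfl | rfl
          · exact absurd (by decide) hΔ
          · exact absurd (by decide) hΔ
      · rcases key a₄ with rfl | rfl
        · rcases key a₆ with rfl | rfl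
          · exact ⟨by rw [card_01100]; exact redData_01100, Or.inr (by decide)⟩
          · exact ⟨by rw [card_01101]; exact redData_01101, Or.inr (by decide)⟩
        · rcases key a₆ with rfl | rfl
          · exact ⟨by rw [card_01110]; exact redData_01110, Or.inr (by decide)⟩
          · exact ⟨by rw [card_01111]; exact redData_01111, Or.inr (by decide)⟩
  · rcases key a₂ with rfl | rfl
    · rcases key a₃ with rfl | rfl
      · rcases key a₄ with rfl | rfl
        · rcases key a₆ with rfl | rfl
          · exact absurd (by decide) hΔ
          · exact ⟨by rw [card_10001]; exact redData_10001, Or.inl (by decide)⟩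
        · rcases key a₆ with rfl | rfl
          · exact ⟨by rw [card_10010]; exact redData_10010, Or.inl (by decide)⟩
          · exact absurd (by decide) hΔ
      · rcases key a₄ with rfl | rfl
        · rcases key a₆ with rfl | rfl
          · exact absurd (by decide) hΔ
          · exact ⟨by rw [card_10101]; exact redData_10101, Or.inl (by decide)⟩
        · rcases key a₆ with rfl | rfl
          · exact absurd (by decide) hΔ
          · exact ⟨by rw [card_10111]; exact redData_10111, Or.inl (by decide)⟩
    · rcases key a₃ with rfl | rfl
      · rcases key a₄ with rfl | rfl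
        · rcases key a₆ with rfl | rfl
          · exact absurd (by decide) hΔ
          · exact ⟨by rw [card_11001]; exact redData_11001, Or.inl (by decide)⟩
        · rcases key a₆ with rfl | rfl
          · exact ⟨by rw [card_11010]; exact redData_11010, Or.inl (by decide)⟩
          · exact absurd (by decide) hΔ
      · rcases key a₄ with rfl | rfl
        · rcases key a₆ with rfl | rfl
          · exact ⟨by rw [card_11100]; exact redData_11100, Or.inl (by decide)⟩
          · exact absurd (by decide) hΔ
        · rcases key a₆ with rfl | rfl
          · exact ⟨by rw [card_11110]; exact redData_11110, Or.inl (by decide)⟩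
          · exact absurd (by decide) hΔ

/-- **Piece A2 at `ℓ = 2`.** -/
theorem frobRelationFin_two (E : WeierstrassCurve (ZMod 2)) (hΔ : E.Δ ≠ 0)
    (k : Type) [Field k] [Algebra (ZMod 2) k] [DecidableEq k] (P : (E⁄k).Point) :
    Fermat.Agent.Lib.Frob.frobPt 2 E k (Fermat.Agent.Lib.Frob.frobPt 2 E k P)
      - E.traceOfFrobenius • Fermat.Agent.Lib.Frob.frobPt 2 E k P + ((2 : ℕ) : ℤ) • P = 0 := by
  have : E.IsElliptic := ⟨isUnit_iff_ne_zero.mpr hΔ⟩
  obtain ⟨⟨D⟩, hsep⟩ := exists_redData_two E hΔ
  have hs : Sep (Wκ E (ZMod 2)) := by
    right
    rcases hsep with h | h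
    · left
      simpa [Wκ, WeierstrassCurve.baseChange] using h
    · right
      simpa [Wκ, WeierstrassCurve.baseChange] using h
  have key := isConstPt_psi_of_pair E (ZMod 2) hs (fun c => isAlgebraic_algebraMap c)
    (maninPair_two E (ZMod 2)) D (genericPoint_mem E (ZMod 2))
  have ha : E.traceOfFrobenius = (Fintype.card (ZMod 2) : ℤ) + 1 - E.card := by
    rw [WeierstrassCurve.traceOfFrobenius, Nat.card_eq_fintype_card]
  have hC : H230.IsConstPt E (H230.frobPsi E (KK E (ZMod 2)) E.traceOfFrobenius
      (Point.some _ _ (generic_nonsingular E (ZMod 2)))) := by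
    rw [H230.frobPsi_apply, ha]
    exact key
  have h0 := H230.frobPsi_eq_zero E hΔ (generic_nonsingular E (ZMod 2)) (xF_transcendental _)
    E.traceOfFrobenius hC (L := k) P
  rw [H230.frobPsi_apply, ZMod.card] at h0
  exact h0

end Fermat.Agent.Lib.Frob.Small
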